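/-
S16 / LOWER, package L4 (Core), helper67 (backup seat of L4, owner helper75).

Abstract "LOWER core" on top of the Eichler–Shimura statement S21 (taken as a hypothesis `hES`,
so that this file only depends on the Prelude):

  given additive operators `Tz ℓ` on `Hom(Γ₀(N), ℤ)` and maps `Tc ℓ` on `Hom(Γ₀(N), ℂ)` that are
  compatible with the cast `ℤ → ℂ` and with the period map (`periodHomPair`) of the Hecke
  generators `heckeFormsGen N 2 ℓ`, and an integral PARABOLIC class `ψ` which is an eigenvector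
  modulo `n` with eigenvalues `a ℓ` and takes a value prime to `n`:
  every `P : HeckeAlg` that kills the weight-2 cusp forms satisfies `n ∣ aeval a P`.

No commutativity of the operators `Tz ℓ` is needed.
-/
import Fermat.Prelude.Def_CuspForm_HeckeEvalForms
import Fermat.Prelude.Def_ModularCurve_PeriodHomPair

set_option autoImplicit false

open CongruenceSubgroup ModularCurve ModularCurve.Period CuspForm
open scoped MatrixGroups

namespace Fermat.Agent.S16.H67

noncomputable section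

variable (N : ℕ)

/-- The complexification of an integer valued homomorphism on `Γ₀(N)`. -/
def castHomC (φ : Additive (Gamma0 N) →+ ℤ) : Additive (Gamma0 N) →+ ℂ :=
  (Int.castAddHom ℂ).comp φ

@[simp] theorem castHomC_apply (φ : Additive (Gamma0 N) →+ ℤ) (γ : Additive (Gamma0 N)) :
    castHomC N φ γ = ((φ γ : ℤ) : ℂ) := rfl

theorem castHomC_injective : Function.Injective (castHomC N) := by
  intro φ φ' h
  refine AddMonoidHom.ext fun γ => ?_
  have := DFunLike.congr_fun h γ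
  simpa using this

theorem castHomC_add (φ φ' : Additive (Gamma0 N) →+ ℤ) :
    castHomC N (φ + φ') = castHomC N φ + castHomC N φ' := by
  refine AddMonoidHom.ext fun γ => ?_
  simp

theorem castHomC_zsmul (c : ℤ) (φ : Additive (Gamma0 N) →+ ℤ) :
    castHomC N (c • φ) = c • castHomC N φ := by
  refine AddMonoidHom.ext fun γ => ?_
  simp

/-- An additive operator on integral homomorphisms preserves pointwise divisibility by `n`. -/
theorem dvd_apply_of_forall_dvd (n : ℕ)
    (L : (Additive (Gamma0 N) →+ ℤ) →+ (Additive (Gamma0 N) →+ ℤ))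
    (δ : Additive (Gamma0 N) →+ ℤ) (hδ : ∀ γ, (n : ℤ) ∣ δ γ) (γ : Additive (Gamma0 N)) :
    (n : ℤ) ∣ L δ γ := by
  rcases Nat.eq_zero_or_pos n with rfl | hn
  · have hδ0 : δ = 0 := by
      refine AddMonoidHom.ext fun γ' => ?_
      simpa using hδ γ'
    rw [hδ0, map_zero]
    simp
  · have hn0 : (n : ℤ) ≠ 0 := by exact_mod_cast hn.ne'
    let χ : Additive (Gamma0 N) →+ ℤ :=
      { toFun := fun γ' => δ γ' / (n : ℤ)
        map_zero' := by simp
        map_add' := fun x y => by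
          rw [map_add]
          exact Int.add_ediv_of_dvd_left (hδ x) }
    have hδχ : δ = (n : ℤ) • χ := by
      refine AddMonoidHom.ext fun γ' => ?_
      show δ γ' = (n : ℤ) • (δ γ' / (n : ℤ))
      rw [smul_eq_mul, Int.mul_ediv_cancel' (hδ γ')]
    rw [hδχ, map_zsmul]
    exact ⟨L χ γ, rfl⟩

variable [NeZero N]

/-- The action of an abstract Hecke polynomial on weight-2 cusp forms of level `N`. -/
def heckeAct (P : HeckeAlg) (f : CuspForm (Gamma0 N) 2) : CuspForm (Gamma0 N) 2 :=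
  ((heckeEvalForms N 2 P : heckeAlgebra N 2 ∅) :
    Module.End ℂ (CuspForm (Gamma0 N) 2)) f

theorem heckeAct_C (c : ℤ) (f : CuspForm (Gamma0 N) 2) :
    heckeAct N (MvPolynomial.C c) f = c • f := by
  unfold heckeAct
  rw [heckeEvalForms_C]
  simp

theorem heckeAct_add (P Q : HeckeAlg) (f : CuspForm (Gamma0 N) 2) :
    heckeAct N (P + Q) f = heckeAct N P f + heckeAct N Q f := by
  unfold heckeAct
  rw [map_add]
  rfl

theorem heckeAct_mul_X (P : HeckeAlg) (ℓ : Nat.Primes) (f : CuspForm (Gamma0 N) 2) :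
    heckeAct N (P * MvPolynomial.X ℓ) f
      = heckeAct N P (((heckeFormsGen N 2 ℓ : heckeAlgebra N 2 ∅) :
          Module.End ℂ (CuspForm (Gamma0 N) 2)) f) := by
  unfold heckeAct
  rw [map_mul]
  have : heckeEvalForms N 2 (MvPolynomial.X ℓ) = heckeFormsGen N 2 ℓ :=
    heckeEvalForms_heckeGen N 2 ℓ
  rw [this]
  rfl

theorem heckeAct_of_eval_eq_zero {P : HeckeAlg} (hP : heckeEvalForms N 2 P = 0)
    (f : CuspForm (Gamma0 N) 2) : heckeAct N P f = 0 := by
  unfold heckeAct
  rw [hP]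
  rfl

/-- **LOWER core.** See the header of this file. `hES` is the range half of Eichler–Shimura
(`Fermat.Agent.S21.result N`). -/
theorem dvd_aeval_of_eigen_mod
    (hES : LinearMap.range (periodHomPair N) = parabolicHoms ℂ (Gamma0 N) ℂ)
    (n : ℕ) (a : Nat.Primes → ℤ)
    (Tz : Nat.Primes → (Additive (Gamma0 N) →+ ℤ) →+ (Additive (Gamma0 N) →+ ℤ))
    (Tc : Nat.Primes → (Additive (Gamma0 N) →+ ℂ) → (Additive (Gamma0 N) →+ ℂ))
    (hnat : ∀ (ℓ : Nat.Primes) (φ : Additive (Gamma0 N) →+ ℤ),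
      Tc ℓ (castHomC N φ) = castHomC N (Tz ℓ φ))
    (hper : ∀ (ℓ : Nat.Primes) (f g : CuspForm (Gamma0 N) 2),
      periodHomPair N
        (((heckeFormsGen N 2 ℓ : heckeAlgebra N 2 ∅) : Module.End ℂ (CuspForm (Gamma0 N) 2)) f,
         ((heckeFormsGen N 2 ℓ : heckeAlgebra N 2 ∅) : Module.End ℂ (CuspForm (Gamma0 N) 2)) g)
        = Tc ℓ (periodHomPair N (f, g)))
    (ψ : Additive (Gamma0 N) →+ ℤ) (hpar : ψ ∈ parabolicHoms ℤ (Gamma0 N) ℤ)
    (heig : ∀ (ℓ : Nat.Primes) (γ : Additive (Gamma0 N)), (n : ℤ) ∣ Tz ℓ ψ γ - a ℓ * ψ γ)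
    (γ₀ : Additive (Gamma0 N)) (hγ₀ : IsCoprime (ψ γ₀) (n : ℤ))
    (P : HeckeAlg) (hP : heckeEvalForms N 2 P = 0) :
    (n : ℤ) ∣ MvPolynomial.aeval a P := by
  -- the inductive statement
  have key : ∀ Q : HeckeAlg,
      ∃ L : (Additive (Gamma0 N) →+ ℤ) →+ (Additive (Gamma0 N) →+ ℤ),
        (∀ (φ : Additive (Gamma0 N) →+ ℤ) (f g : CuspForm (Gamma0 N) 2),
          periodHomPair N (f, g) = castHomC N φ →
            periodHomPair N (heckeAct N Q f, heckeAct N Q g) = castHomC N (L φ)) ∧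
        (∀ γ : Additive (Gamma0 N), (n : ℤ) ∣ L ψ γ - MvPolynomial.aeval a Q * ψ γ) := by
    intro Q
    induction Q using MvPolynomial.induction_on with
    | C c =>
      refine ⟨c • AddMonoidHom.id _, ?_, ?_⟩
      · intro φ f g h
        rw [heckeAct_C, heckeAct_C]
        have : ((c • f, c • g) : CuspForm (Gamma0 N) 2 × CuspForm (Gamma0 N) 2) = c • (f, g) := rfl
        rw [this, map_zsmul, h]
        show c • castHomC N φ = castHomC N (c • φ)
        rw [castHomC_zsmul]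
      · intro γ
        simp
    | add Q₁ Q₂ ih₁ ih₂ =>
      obtain ⟨L₁, h₁, e₁⟩ := ih₁
      obtain ⟨L₂, h₂, e₂⟩ := ih₂
      refine ⟨L₁ + L₂, ?_, ?_⟩
      · intro φ f g h
        rw [heckeAct_add, heckeAct_add]
        have : ((heckeAct N Q₁ f + heckeAct N Q₂ f, heckeAct N Q₁ g + heckeAct N Q₂ g) :
            CuspForm (Gamma0 N) 2 × CuspForm (Gamma0 N) 2)
            = (heckeAct N Q₁ f, heckeAct N Q₁ g) + (heckeAct N Q₂ f, heckeAct N Q₂ g) := rfl
        rw [this, map_add, h₁ φ f g h, h₂ φ f g h]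
        show castHomC N (L₁ φ) + castHomC N (L₂ φ) = castHomC N (L₁ φ + L₂ φ)
        rw [castHomC_add]
      · intro γ
        have := dvd_add (e₁ γ) (e₂ γ)
        have hrw : (L₁ + L₂) ψ γ - MvPolynomial.aeval a (Q₁ + Q₂) * ψ γ
            = (L₁ ψ γ - MvPolynomial.aeval a Q₁ * ψ γ)
              + (L₂ ψ γ - MvPolynomial.aeval a Q₂ * ψ γ) := by
          rw [map_add]
          show L₁ ψ γ + L₂ ψ γ - _ = _
          ring
        rw [hrw]
        exact this
    | mul_X Q ℓ ih =>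
      obtain ⟨L, h, e⟩ := ih
      refine ⟨L.comp (Tz ℓ), ?_, ?_⟩
      · intro φ f g hφ
        rw [heckeAct_mul_X, heckeAct_mul_X]
        refine h (Tz ℓ φ) _ _ ?_
        rw [hper ℓ f g, hφ, hnat ℓ φ]
      · intro γ
        -- `Tz ℓ ψ = a ℓ • ψ + δ` with `δ` divisible by `n`
        let δ : Additive (Gamma0 N) →+ ℤ := Tz ℓ ψ - a ℓ • ψ
        have hδ : ∀ γ', (n : ℤ) ∣ δ γ' := fun γ' => by
          show (n : ℤ) ∣ Tz ℓ ψ γ' - a ℓ • ψ γ'
          simpa [smul_eq_mul] using heig ℓ γ'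
        have hsplit : Tz ℓ ψ = a ℓ • ψ + δ := by
          show Tz ℓ ψ = a ℓ • ψ + (Tz ℓ ψ - a ℓ • ψ)
          abel
        have h1 : (n : ℤ) ∣ L δ γ := dvd_apply_of_forall_dvd N n L δ hδ γ
        have h2 : (L.comp (Tz ℓ)) ψ γ = a ℓ * L ψ γ + L δ γ := by
          show L (Tz ℓ ψ) γ = _
          rw [hsplit, map_add, map_zsmul]
          rfl
        have h3 : (L.comp (Tz ℓ)) ψ γ - MvPolynomial.aeval a (Q * MvPolynomial.X ℓ) * ψ γ
            = a ℓ * (L ψ γ - MvPolynomial.aeval a Q * ψ γ) + L δ γ := by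
          rw [h2, map_mul, MvPolynomial.aeval_X]
          ring
        rw [h3]
        exact dvd_add (Dvd.dvd.mul_left (e γ) _) h1
  -- apply it to `P` and to a period pair of `ψ`
  obtain ⟨L, hL, eL⟩ := key P
  have hψC : castHomC N ψ ∈ parabolicHoms ℂ (Gamma0 N) ℂ := by
    rw [mem_parabolicHoms_iff]
    intro γ hγ
    have h0 : ψ (Additive.ofMul γ) = 0 := (mem_parabolicHoms_iff.mp hpar) γ hγ
    show ((ψ (Additive.ofMul γ) : ℤ) : ℂ) = 0
    rw [h0]; simp
  rw [← hES] at hψC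
  obtain ⟨⟨f, g⟩, hfg⟩ := hψC
  have h0 := hL ψ f g hfg
  rw [heckeAct_of_eval_eq_zero N hP, heckeAct_of_eval_eq_zero N hP] at h0
  have hLψ : L ψ = 0 := by
    apply castHomC_injective N
    rw [← h0]
    have : ((0, 0) : CuspForm (Gamma0 N) 2 × CuspForm (Gamma0 N) 2) = 0 := rfl
    rw [this, map_zero]
    refine AddMonoidHom.ext fun γ => ?_
    simp
  have hdvd : (n : ℤ) ∣ MvPolynomial.aeval a P * ψ γ₀ := by
    have := eL γ₀
    rw [hLψ] at this
    simpa using this
  exact (hγ₀.symm.dvd_of_dvd_mul_right hdvd)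

end

end Fermat.Agent.S16.H67
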