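/-
S16 / LOWER, package L4a (independent backup by helper67; owner helper75).

GENERIC period computation: if `F` is the equivariant primitive of the weight-2 cusp form `f`
(in the sense of `ModularCurve.HasEquivariantPrimitive`) and `g = ∑ i, f ∣[2] α i` for a finite
family `α i ∈ GL₂(ℝ)⁺` which is permuted by `Γ₀(N)` up to left factors `coc γ i ∈ Γ₀(N)`
(`α i • γ • z = coc γ i • α (perm γ i) • z`), then `z ↦ ∑ i, F (α i • z)` is the equivariant
primitive of `g`, and

  `periodMap N g γ = ∑ i, periodMap N f (coc γ i)`.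

The two cusp conditions are hypotheses in "action form":
* `htop`  : `z ↦ α i • z` tends to `i∞` at `i∞` (upper triangular `α i`),
* `hcusp` : `α i • δ • z = δ' • β z` with `δ' ∈ SL(2, ℤ)` and `β → i∞` (Hermite normal form).
-/
import Mathlib
import Fermat.Agent.S21.H21.Primitive

open UpperHalfPlane hiding I
open Complex Filter Function CongruenceSubgroup ModularCurve ModularCurve.Period
open scoped Real Topology Manifold MatrixGroups ModularForm

set_option autoImplicit false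

namespace Fermat.Agent.S16.H67

/-- Chain rule: the derivative of `z ↦ F (g • z)` is the weight-2 slash of the derivative of
`F`, for `g` of positive determinant. -/
theorem hasDerivAt_comp_smul {g : GL (Fin 2) ℝ} (hg : 0 < g.val.det) {f F : ℍ → ℂ}
    (hF : ∀ τ : ℍ, HasDerivAt (F ∘ ofComplex) (f τ) ↑τ) (τ : ℍ) :
    HasDerivAt ((fun z : ℍ => F (g • z)) ∘ ofComplex) ((f ∣[(2 : ℤ)] g) τ) ↑τ := by
  have h1 : HasDerivAt (fun w : ℂ => ((g • ofComplex w : ℍ) : ℂ))
      ((g.val.det : ℂ) / denom g τ ^ 2) ↑τ := (hasStrictDerivAt_smul hg τ).hasDerivAt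
  have h2 : HasDerivAt (F ∘ ofComplex) (f (g • τ))
      ((fun w : ℂ => ((g • ofComplex w : ℍ) : ℂ)) ↑τ) := by
    have := hF (g • τ)
    simpa [ofComplex_apply] using this
  have h3 := h2.comp (↑τ : ℂ) h1
  have hfun : ((F ∘ ofComplex) ∘ fun w : ℂ => ((g • ofComplex w : ℍ) : ℂ))
      = (fun z : ℍ => F (g • z)) ∘ ofComplex := by
    funext w
    simp [Function.comp, ofComplex_apply]
  rw [hfun] at h3
  have hdet : g.det.val = g.val.det := Matrix.GeneralLinearGroup.val_det_apply g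
  have hσ : UpperHalfPlane.σ g = .refl ℝ ℂ := by
    rw [UpperHalfPlane.σ, if_pos (by rw [hdet]; exact hg)]
  have hz := denom_ne_zero g τ
  have hval : (f ∣[(2 : ℤ)] g) τ = f (g • τ) * ((g.val.det : ℂ) / denom g τ ^ 2) := by
    rw [ModularForm.slash_apply, hσ, hdet, abs_of_pos hg]
    simp only [ContinuousAlgEquiv.refl_apply]
    rw [show (2 : ℤ) - 1 = 1 by norm_num, zpow_one, zpow_neg, div_eq_mul_inv, mul_assoc]
    norm_cast
  rw [hval]
  exact h3

variable {N : ℕ} {ι : Type*} [Fintype ι]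

/-- The equivariant primitive of `∑ i, f ∣[2] α i`, together with its period cocycle. -/
theorem hasEquivariantPrimitive_sum_smul (α : ι → GL (Fin 2) ℝ)
    (hdet : ∀ i, 0 < (α i).val.det)
    (htop : ∀ i, Tendsto (fun z : ℍ => α i • z) atImInfty atImInfty)
    (coc : Gamma0 N → ι → Gamma0 N) (perm : Gamma0 N → ι → ι)
    (hperm : ∀ γ, Function.Bijective (perm γ))
    (hrel : ∀ (γ : Gamma0 N) (i : ι) (z : ℍ),
      α i • ((γ : SL(2, ℤ)) • z) = ((coc γ i : Gamma0 N) : SL(2, ℤ)) • (α (perm γ i) • z))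
    (hcusp : ∀ (i : ι) (δ : SL(2, ℤ)), ∃ (δ' : SL(2, ℤ)) (β : ℍ → ℍ),
      Tendsto β atImInfty atImInfty ∧ ∀ z : ℍ, α i • (δ • z) = δ' • β z)
    {f g : CuspForm (Gamma0 N) 2} {F : ℍ → ℂ} (hF : HasEquivariantPrimitive N f F)
    (hg : ∀ τ : ℍ, g τ = ∑ i, ((f : ℍ → ℂ) ∣[(2 : ℤ)] α i) τ) :
    HasEquivariantPrimitive N g (fun z => ∑ i, F (α i • z)) ∧
      ∀ (γ : Gamma0 N) (z : ℍ),
        (∑ i, F (α i • ((γ : SL(2, ℤ)) • z))) - ∑ i, F (α i • z)
          = ∑ i, hF.2.2.1.period (coc γ i) := by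
  have hper : ∀ (γ : Gamma0 N) (z : ℍ),
      (∑ i, F (α i • ((γ : SL(2, ℤ)) • z))) - ∑ i, F (α i • z)
        = ∑ i, hF.2.2.1.period (coc γ i) := by
    intro γ z
    have h1 : ∀ i, F (α i • ((γ : SL(2, ℤ)) • z))
        = hF.2.2.1.period (coc γ i) + F (α (perm γ i) • z) := by
      intro i
      rw [hrel γ i z]
      have := hF.2.2.1.sub_eq_period (coc γ i) (α (perm γ i) • z)
      rw [← this]; ring
    have h2 : ∑ i, F (α (perm γ i) • z) = ∑ i, F (α i • z) :=
      (hperm γ).sum_comp (fun i => F (α i • z))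
    rw [Finset.sum_congr rfl (fun i _ => h1 i), Finset.sum_add_distrib, h2]
    ring
  refine ⟨⟨fun τ => ?_, ?_, fun γ => ?_, fun δ => ?_⟩, hper⟩
  · -- derivative
    have hsum : ((fun z : ℍ => ∑ i, F (α i • z)) ∘ ofComplex)
        = fun w : ℂ => ∑ i, ((fun z : ℍ => F (α i • z)) ∘ ofComplex) w := by
      funext w; simp [Function.comp]
    rw [hsum, hg τ]
    exact HasDerivAt.fun_sum fun i _ => hasDerivAt_comp_smul (hdet i) hF.1 τ
  · -- zero at i∞
    have h : Tendsto (fun z : ℍ => ∑ i, F (α i • z)) atImInfty (𝓝 (∑ _i : ι, (0 : ℂ))) :=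
      tendsto_finsetSum _ fun i _ => hF.2.1.comp (htop i)
    simpa using h
  · -- equivariance
    exact ⟨∑ i, hF.2.2.1.period (coc γ i), fun z => hper γ z⟩
  · -- limits at the other cusps
    choose δ' β hβ hrelδ using fun i => hcusp i δ
    choose L hL using fun i => hF.2.2.2 (δ' i)
    refine ⟨∑ i, L i, ?_⟩
    have h : Tendsto (fun w : ℍ => ∑ i, F (δ' i • β i w)) atImInfty (𝓝 (∑ i, L i)) :=
      tendsto_finsetSum _ fun i _ => (hL i).comp (hβ i)
    refine h.congr fun w => ?_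
    exact Finset.sum_congr rfl fun i _ => by rw [hrelδ i w]

/-- **Hecke-type equivariance of the period map (generic form).** -/
theorem periodMap_sum_slash [NeZero N] (α : ι → GL (Fin 2) ℝ)
    (hdet : ∀ i, 0 < (α i).val.det)
    (htop : ∀ i, Tendsto (fun z : ℍ => α i • z) atImInfty atImInfty)
    (coc : Gamma0 N → ι → Gamma0 N) (perm : Gamma0 N → ι → ι)
    (hperm : ∀ γ, Function.Bijective (perm γ))
    (hrel : ∀ (γ : Gamma0 N) (i : ι) (z : ℍ),
      α i • ((γ : SL(2, ℤ)) • z) = ((coc γ i : Gamma0 N) : SL(2, ℤ)) • (α (perm γ i) • z))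
    (hcusp : ∀ (i : ι) (δ : SL(2, ℤ)), ∃ (δ' : SL(2, ℤ)) (β : ℍ → ℍ),
      Tendsto β atImInfty atImInfty ∧ ∀ z : ℍ, α i • (δ • z) = δ' • β z)
    (f g : CuspForm (Gamma0 N) 2)
    (hg : ∀ τ : ℍ, g τ = ∑ i, ((f : ℍ → ℂ) ∣[(2 : ℤ)] α i) τ) (γ : Gamma0 N) :
    periodMap N g (Additive.ofMul γ) = ∑ i, periodMap N f (Additive.ofMul (coc γ i)) := by
  obtain ⟨F, hF⟩ := Fermat.Agent.S21.H21.exists_hasEquivariantPrimitive N f
  obtain ⟨hG, hperG⟩ :=
    hasEquivariantPrimitive_sum_smul α hdet htop coc perm hperm hrel hcusp hF hg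
  rw [Fermat.Agent.S21.H21.periodMap_apply hG γ UpperHalfPlane.I, hperG γ UpperHalfPlane.I]
  refine Finset.sum_congr rfl fun i _ => ?_
  rw [Fermat.Agent.S21.H21.periodMap_apply hF (coc γ i) UpperHalfPlane.I]
  rfl

end Fermat.Agent.S16.H67
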